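import Mathlib

/-!
# S16 (L1): abstract Hecke operators on `Hom(Γ, A)` from coset representatives

`ι : Γ →* G` is an injective group homomorphism (think `Γ₀(N) → GL₂(ℝ)`), and `α : I → G` is a
finite family of representatives of the left cosets `ι(Γ) \ ι(Γ) α ι(Γ)`: for every `γ : Γ` and
`i : I` there are `perm γ i : I` and `elt γ i : Γ` with

  `α i * ι γ = ι (elt γ i) * α (perm γ i)`,

and the cosets `ι(Γ) α i` are pairwise distinct.  Then `γ ↦ perm γ` is an (anti-)action of `Γ` on
`I` by permutations, `elt` is a cocycle, and for every abelian group `A`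

  `(op φ)(γ) = ∑ i, φ (elt γ i)`

is an endomorphism of `Hom(Γ, A)`: the Hecke operator of the double coset.  It does not depend on
the choice of representatives (`op_eq_of_reps`), is natural in `A` (`op_comp`), and for
torsion-free `A` preserves classes vanishing on a "conjugation-power stable" set of elements
(`op_apply_eq_zero_of_torsionFree`).
-/

set_option autoImplicit false

namespace Fermat.Agent.S16.HeckeHom24

/-- A system of representatives for a Hecke double coset. -/
structure HeckeSys {Γ G : Type*} [Group Γ] [Group G] (ι : Γ →* G) (I : Type*) where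
  /-- the representatives -/
  α : I → G
  /-- the permutation of the cosets induced by right multiplication -/
  perm : Γ → I → I
  /-- the cocycle -/
  elt : Γ → I → Γ
  inj : Function.Injective ι
  rel : ∀ γ i, α i * ι γ = ι (elt γ i) * α (perm γ i)
  distinct : ∀ (i j : I) (δ : Γ), α i = ι δ * α j → i = j

namespace HeckeSys

variable {Γ G : Type*} [Group Γ] [Group G] {ι : Γ →* G} {I : Type*} (D : HeckeSys ι I)

theorem unique {γ δ : Γ} {i j : I} (h : D.α i * ι γ = ι δ * D.α j) :
    D.perm γ i = j ∧ D.elt γ i = δ := by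
  have h1 := D.rel γ i
  rw [h] at h1
  have h2 : D.α (D.perm γ i) = ι ((D.elt γ i)⁻¹ * δ) * D.α j := by
    rw [map_mul, map_inv, mul_assoc, h1, inv_mul_cancel_left]
  have h3 := D.distinct _ _ _ h2
  refine ⟨h3, ?_⟩
  rw [h3] at h1
  exact (D.inj (mul_right_cancel h1)).symm

theorem perm_eq {γ δ : Γ} {i j : I} (h : D.α i * ι γ = ι δ * D.α j) : D.perm γ i = j :=
  (D.unique h).1

theorem elt_eq {γ δ : Γ} {i j : I} (h : D.α i * ι γ = ι δ * D.α j) : D.elt γ i = δ :=
  (D.unique h).2

@[simp] theorem perm_one (i : I) : D.perm 1 i = i :=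
  D.perm_eq (δ := 1) (by simp)

@[simp] theorem elt_one (i : I) : D.elt 1 i = 1 :=
  D.elt_eq (j := i) (by simp)

theorem rel_mul (γ δ : Γ) (i : I) :
    D.α i * ι (γ * δ) = ι (D.elt γ i * D.elt δ (D.perm γ i)) * D.α (D.perm δ (D.perm γ i)) := by
  rw [map_mul, ← mul_assoc, D.rel γ i, mul_assoc, D.rel δ, ← mul_assoc, map_mul]

theorem perm_mul (γ δ : Γ) (i : I) : D.perm (γ * δ) i = D.perm δ (D.perm γ i) :=
  D.perm_eq (D.rel_mul γ δ i)

theorem elt_mul (γ δ : Γ) (i : I) :
    D.elt (γ * δ) i = D.elt γ i * D.elt δ (D.perm γ i) :=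
  D.elt_eq (D.rel_mul γ δ i)

theorem perm_inv_perm (γ : Γ) (i : I) : D.perm γ⁻¹ (D.perm γ i) = i := by
  rw [← perm_mul, mul_inv_cancel, perm_one]

theorem perm_perm_inv (γ : Γ) (i : I) : D.perm γ (D.perm γ⁻¹ i) = i := by
  rw [← perm_mul, inv_mul_cancel, perm_one]

/-- `perm γ` as a permutation. -/
def permEquiv (γ : Γ) : Equiv.Perm I where
  toFun := D.perm γ
  invFun := D.perm γ⁻¹
  left_inv := D.perm_inv_perm γ
  right_inv := D.perm_perm_inv γ

@[simp] theorem permEquiv_apply (γ : Γ) (i : I) : D.permEquiv γ i = D.perm γ i := rfl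

theorem perm_bijective (γ : Γ) : Function.Bijective (D.perm γ) := (D.permEquiv γ).bijective

theorem permEquiv_mul (γ δ : Γ) : D.permEquiv (γ * δ) = D.permEquiv δ * D.permEquiv γ := by
  ext i; simp [perm_mul]

theorem permEquiv_one : D.permEquiv 1 = 1 := by
  ext i; simp

theorem permEquiv_pow (γ : Γ) (m : ℕ) : D.permEquiv (γ ^ m) = D.permEquiv γ ^ m := by
  induction m with
  | zero => simp [permEquiv_one]
  | succ m ih => rw [pow_succ, permEquiv_mul, ih, pow_succ']

/-- If `perm γ` fixes `i`, then `elt γ i` is the `α i`-conjugate of `γ`. -/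
theorem map_elt_of_perm_eq {γ : Γ} {i : I} (h : D.perm γ i = i) :
    ι (D.elt γ i) = D.α i * ι γ * (D.α i)⁻¹ := by
  have := D.rel γ i
  rw [h] at this
  rw [this, mul_inv_cancel_right]

section Op

variable [Fintype I] {A : Type*} [AddCommGroup A]

/-- The Hecke operator on `Hom(Γ, A)` attached to a Hecke system. -/
noncomputable def op (D : HeckeSys ι I) : (Additive Γ →+ A) →+ (Additive Γ →+ A) where
  toFun φ :=
    { toFun := fun γ => ∑ i, φ (Additive.ofMul (D.elt (Additive.toMul γ) i))
      map_zero' := by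
        simp only [toMul_zero, elt_one, ofMul_one, map_zero, Finset.sum_const_zero]
      map_add' := fun γ δ => by
        simp only [toMul_add, elt_mul, ofMul_mul, map_add, Finset.sum_add_distrib]
        congr 1
        exact Equiv.sum_comp (D.permEquiv (Additive.toMul γ))
          (fun i => φ (Additive.ofMul (D.elt (Additive.toMul δ) i))) }
  map_zero' := by
    refine AddMonoidHom.ext fun γ => ?_
    simp
  map_add' := fun φ ψ => by
    refine AddMonoidHom.ext fun γ => ?_
    simp [Finset.sum_add_distrib]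

theorem op_apply (φ : Additive Γ →+ A) (γ : Γ) :
    D.op φ (Additive.ofMul γ) = ∑ i, φ (Additive.ofMul (D.elt γ i)) := rfl

/-- Naturality in the coefficient group. -/
theorem op_comp {B : Type*} [AddCommGroup B] (g : A →+ B) (φ : Additive Γ →+ A) :
    D.op (g.comp φ) = g.comp (D.op φ) := by
  refine AddMonoidHom.ext fun γ => ?_
  obtain ⟨γ, rfl⟩ := Additive.ofMul.surjective γ
  simp [op_apply]

theorem op_smul (n : ℤ) (φ : Additive Γ →+ A) : D.op (n • φ) = n • D.op φ := map_zsmul _ _ _

/-- Independence of the choice of representatives: if `D'.α i = ι (τ i) * D.α (π i)` for a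
bijection `π`, the two operators agree. -/
theorem op_eq_of_reps {I' : Type*} [Fintype I'] (D' : HeckeSys ι I') (π : I' ≃ I) (τ : I' → Γ)
    (h : ∀ i, D'.α i = ι (τ i) * D.α (π i)) (φ : Additive Γ →+ A) : D'.op φ = D.op φ := by
  refine AddMonoidHom.ext fun γ => ?_
  obtain ⟨γ, rfl⟩ := Additive.ofMul.surjective γ
  rw [op_apply, op_apply]
  have key : ∀ i, D'.perm γ i = π.symm (D.perm γ (π i)) ∧
      D'.elt γ i = τ i * D.elt γ (π i) * (τ (π.symm (D.perm γ (π i))))⁻¹ := by
    intro i
    apply D'.unique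
    rw [h i, h (π.symm (D.perm γ (π i))), Equiv.apply_symm_apply, mul_assoc, D.rel γ (π i)]
    simp only [map_mul, map_inv, mul_assoc, inv_mul_cancel_left]
  have h1 : ∀ i, φ (Additive.ofMul (D'.elt γ i)) =
      φ (Additive.ofMul (D.elt γ (π i))) +
        (φ (Additive.ofMul (τ i)) - φ (Additive.ofMul (τ (D'.perm γ i)))) := by
    intro i
    rw [(key i).2, ← (key i).1]
    simp only [ofMul_mul, ofMul_inv, map_add, map_neg]
    abel
  simp only [h1, Finset.sum_add_distrib, Finset.sum_sub_distrib]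
  have h2 : ∑ x, φ (Additive.ofMul (τ (D'.perm γ x))) = ∑ x, φ (Additive.ofMul (τ x)) :=
    Equiv.sum_comp (D'.permEquiv γ) (fun i => φ (Additive.ofMul (τ i)))
  rw [h2, sub_self, add_zero]
  exact Equiv.sum_comp π (fun i => φ (Additive.ofMul (D.elt γ i)))

/-- If `φ` kills every `δ` that is `α i`-conjugate to a positive power of `γ`, then
`m • op φ γ = 0` for some `m > 0`. -/
theorem exists_nsmul_op_apply_eq_zero (φ : Additive Γ →+ A) (γ : Γ)
    (h : ∀ (δ : Γ) (i : I) (m : ℕ), 0 < m → ι δ = D.α i * ι (γ ^ m) * (D.α i)⁻¹ →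
      φ (Additive.ofMul δ) = 0) :
    ∃ m : ℕ, 0 < m ∧ m • D.op φ (Additive.ofMul γ) = 0 := by
  classical
  refine ⟨orderOf (D.permEquiv γ), orderOf_pos _, ?_⟩
  set m := orderOf (D.permEquiv γ) with hm
  have hperm : ∀ i, D.perm (γ ^ m) i = i := by
    intro i
    have : D.permEquiv (γ ^ m) = 1 := by rw [permEquiv_pow, hm, pow_orderOf_eq_one]
    simpa using congrArg (fun e : Equiv.Perm I => e i) this
  have h2 : m • D.op φ (Additive.ofMul γ) = D.op φ (Additive.ofMul (γ ^ m)) := by
    rw [ofMul_pow, map_nsmul]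
  rw [h2, op_apply]
  refine Finset.sum_eq_zero fun i _ => ?_
  exact h _ i m (orderOf_pos _) (D.map_elt_of_perm_eq (hperm i))

/-- For torsion-free `A`, the Hecke operator preserves vanishing on a set of elements stable
under "conjugate of a positive power". -/
theorem op_apply_eq_zero_of_torsionFree [IsAddTorsionFree A] (φ : Additive Γ →+ A) (γ : Γ)
    (h : ∀ (δ : Γ) (i : I) (m : ℕ), 0 < m → ι δ = D.α i * ι (γ ^ m) * (D.α i)⁻¹ →
      φ (Additive.ofMul δ) = 0) :
    D.op φ (Additive.ofMul γ) = 0 := by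
  obtain ⟨m, hm, h0⟩ := D.exists_nsmul_op_apply_eq_zero φ γ h
  exact (nsmul_eq_zero_iff_right hm.ne').mp h0

end Op

end HeckeSys

end Fermat.Agent.S16.HeckeHom24
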