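import Mathlib

/-!
# S16 (L1): the integer-matrix coset relations for `T_ℓ` and `U_p` on `Γ₀(N)`

`tMat ℓ (some j) = [[1, j], [0, ℓ]]`, `tMat ℓ none = [[ℓ, 0], [0, 1]]`.  For a prime `ℓ ∤ N`,
`γ ∈ Γ₀(N)` and every index `i` there are an index `j` and `δ ∈ Γ₀(N)` with
`tMat ℓ i * γ = δ * tMat ℓ j`; the left cosets `Γ₀(N) tMat ℓ i` are pairwise distinct.
Likewise for `uMat p j = [[1, j], [0, p]]`, `j < p`, when `p ∣ N`.
-/

set_option autoImplicit false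

open scoped MatrixGroups
open CongruenceSubgroup

namespace Fermat.Agent.S16.HeckeHom24

/-- The integer representatives of `Γ₀(N) \ Γ₀(N) diag(1, ℓ) Γ₀(N)`. -/
def tMat (ℓ : ℕ) : Option (Fin ℓ) → Matrix (Fin 2) (Fin 2) ℤ
  | some j => !![1, (j : ℕ); 0, ℓ]
  | none => !![ℓ, 0; 0, 1]

/-- The integer representatives for `U_p`. -/
def uMat (p : ℕ) (j : Fin p) : Matrix (Fin 2) (Fin 2) ℤ := !![1, (j : ℕ); 0, p]

theorem sl_eq_of (γ : SL(2, ℤ)) :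
    (γ : Matrix (Fin 2) (Fin 2) ℤ) = !![γ 0 0, γ 0 1; γ 1 0, γ 1 1] :=
  Matrix.eta_fin_two _

theorem sl_det (γ : SL(2, ℤ)) : γ 0 0 * γ 1 1 - γ 0 1 * γ 1 0 = 1 := by
  have := γ.det_coe
  rwa [Matrix.det_fin_two] at this

theorem dvd_of_mem_Gamma0 {N : ℕ} {γ : SL(2, ℤ)} (hγ : γ ∈ Gamma0 N) : (N : ℤ) ∣ γ 1 0 := by
  rw [Gamma0_mem] at hγ
  exact (ZMod.intCast_zmod_eq_zero_iff_dvd _ N).mp hγ

theorem mem_Gamma0_of_dvd {N : ℕ} {γ : SL(2, ℤ)} (h : (N : ℤ) ∣ γ 1 0) : γ ∈ Gamma0 N := by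
  rw [Gamma0_mem]
  exact (ZMod.intCast_zmod_eq_zero_iff_dvd _ N).mpr h

/-- Build an element of `SL(2, ℤ)` from entries. -/
def mkSL (x y z w : ℤ) (h : x * w - y * z = 1) : SL(2, ℤ) :=
  ⟨!![x, y; z, w], by rw [Matrix.det_fin_two_of]; exact h⟩

@[simp] theorem mkSL_coe (x y z w : ℤ) (h : x * w - y * z = 1) :
    ((mkSL x y z w h : SL(2, ℤ)) : Matrix (Fin 2) (Fin 2) ℤ) = !![x, y; z, w] := rfl

theorem mkSL_10 (x y z w : ℤ) (h : x * w - y * z = 1) : (mkSL x y z w h) 1 0 = z := rfl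

theorem mat_ext {x y z w x' y' z' w' : ℤ} (h1 : x = x') (h2 : y = y') (h3 : z = z')
    (h4 : w = w') : !![x, y; z, w] = !![x', y'; z', w'] := by
  subst h1 h2 h3 h4; rfl

theorem mat_ext_iff {x y z w x' y' z' w' : ℤ} :
    !![x, y; z, w] = !![x', y'; z', w'] ↔ x = x' ∧ y = y' ∧ z = z' ∧ w = w' :=
  ⟨fun h => ⟨congrFun (congrFun h 0) 0, congrFun (congrFun h 0) 1, congrFun (congrFun h 1) 0,
    congrFun (congrFun h 1) 1⟩, fun h => mat_ext h.1 h.2.1 h.2.2.1 h.2.2.2⟩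

/-- a residue `r` with `0 ≤ r < ℓ` as an element of `Fin ℓ` -/
theorem exists_fin_of_emod {ℓ : ℕ} (hℓ : 0 < ℓ) (x : ℤ) :
    ∃ j : Fin ℓ, ((j : ℕ) : ℤ) = x % ℓ := by
  have h0 : 0 ≤ x % (ℓ : ℤ) := Int.emod_nonneg _ (by exact_mod_cast hℓ.ne')
  have h1 : x % (ℓ : ℤ) < ℓ := Int.emod_lt_of_pos _ (by exact_mod_cast hℓ)
  refine ⟨⟨(x % (ℓ : ℤ)).toNat, ?_⟩, ?_⟩
  · have := Int.toNat_of_nonneg h0
    omega
  · exact Int.toNat_of_nonneg h0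

/-- Solve `ℓ ∣ y - j * x` for `j < ℓ` when `x` is invertible mod `ℓ`. -/
theorem exists_fin_dvd {ℓ : ℕ} (hℓ : 0 < ℓ) {x v : ℤ} (hv : (ℓ : ℤ) ∣ v * x - 1) (y : ℤ) :
    ∃ (j : Fin ℓ) (t : ℤ), y - ((j : ℕ) : ℤ) * x = ℓ * t := by
  obtain ⟨j, hj⟩ := exists_fin_of_emod hℓ (y * v)
  obtain ⟨s, hs⟩ := hv
  have h1 : (ℓ : ℤ) ∣ y * v - (y * v) % ℓ := Int.dvd_self_sub_emod
  obtain ⟨r, hr⟩ := h1
  refine ⟨j, -(y * s) + r * x, ?_⟩
  rw [hj]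
  have : y * v % (ℓ : ℤ) = y * v - ℓ * r := by linarith
  rw [this]
  linear_combination (-y) * hs

section T

variable {N ℓ : ℕ}

theorem exists_rel_T (hℓ : ℓ.Prime) (hℓN : ¬ ℓ ∣ N) {γ : SL(2, ℤ)} (hγ : γ ∈ Gamma0 N)
    (i : Option (Fin ℓ)) :
    ∃ (j : Option (Fin ℓ)) (δ : SL(2, ℤ)), δ ∈ Gamma0 N ∧
      tMat ℓ i * (γ : Matrix (Fin 2) (Fin 2) ℤ) = (δ : Matrix (Fin 2) (Fin 2) ℤ) * tMat ℓ j := by
  have hdet := sl_det γ
  obtain ⟨c', hc'⟩ := dvd_of_mem_Gamma0 hγ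
  have hγeq := sl_eq_of γ
  set a := γ 0 0 with ha
  set b := γ 0 1 with hb
  set c := γ 1 0 with hc
  set d := γ 1 1 with hd
  have hℓpos : 0 < ℓ := hℓ.pos
  have hℓint : Irreducible (ℓ : ℤ) := (Nat.prime_iff_prime_int.mp hℓ).irreducible
  rcases i with _ | j
  · -- the diagonal representative
    by_cases hdiv : (ℓ : ℤ) ∣ c
    · obtain ⟨c₁, hc₁⟩ := hdiv
      -- `N ∣ c₁`
      have hN : (N : ℤ) ∣ c₁ := by
        have h1 : (N : ℤ) ∣ (ℓ : ℤ) * c₁ := ⟨c', by rw [← hc₁, hc']⟩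
        have hcop : IsCoprime (N : ℤ) (ℓ : ℤ) := by
          rw [Int.isCoprime_iff_gcd_eq_one, Int.gcd_natCast_natCast]
          exact (Nat.coprime_comm.mp ((Nat.Prime.coprime_iff_not_dvd hℓ).mpr hℓN))
        exact hcop.dvd_of_dvd_mul_left h1
      refine ⟨none, mkSL a (ℓ * b) c₁ d (by rw [← hdet, hc₁]; ring), mem_Gamma0_of_dvd hN, ?_⟩
      rw [hγeq, mkSL_coe]
      simp only [tMat, Matrix.mul_fin_two]
      refine mat_ext ?_ ?_ ?_ ?_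
      · ring
      · ring
      · linear_combination hc₁
      · ring
    · have hcop : IsCoprime (ℓ : ℤ) c := hℓint.coprime_iff_not_dvd.mpr hdiv
      obtain ⟨u, v, huv⟩ := hcop
      have hv : (ℓ : ℤ) ∣ v * c - 1 := ⟨-u, by linear_combination huv⟩
      obtain ⟨j', t, ht⟩ := exists_fin_dvd hℓpos hv d
      refine ⟨some j', mkSL (ℓ * a) (b - ((j' : ℕ) : ℤ) * a) c t
        (by rw [← hdet]; linear_combination (-a) * ht), mem_Gamma0_of_dvd ⟨c', hc'⟩, ?_⟩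
      rw [hγeq, mkSL_coe]
      simp only [tMat, Matrix.mul_fin_two]
      refine mat_ext ?_ ?_ ?_ ?_
      · ring
      · ring
      · ring
      · linear_combination ht
  · -- the representative `[[1, j], [0, ℓ]]`
    by_cases hdiv : (ℓ : ℤ) ∣ a + ((j : ℕ) : ℤ) * c
    · obtain ⟨a₁, ha₁⟩ := hdiv
      refine ⟨none, mkSL a₁ (b + ((j : ℕ) : ℤ) * d) c (ℓ * d)
        (by rw [← hdet]; linear_combination (-d) * ha₁), mem_Gamma0_of_dvd ⟨c', hc'⟩, ?_⟩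
      rw [hγeq, mkSL_coe]
      simp only [tMat, Matrix.mul_fin_two]
      refine mat_ext ?_ ?_ ?_ ?_
      · linear_combination ha₁
      · ring
      · ring
      · ring
    · have hcop : IsCoprime (ℓ : ℤ) (a + ((j : ℕ) : ℤ) * c) := hℓint.coprime_iff_not_dvd.mpr hdiv
      obtain ⟨u, v, huv⟩ := hcop
      have hv : (ℓ : ℤ) ∣ v * (a + ((j : ℕ) : ℤ) * c) - 1 := ⟨-u, by linear_combination huv⟩
      obtain ⟨j', t, ht⟩ := exists_fin_dvd hℓpos hv (b + ((j : ℕ) : ℤ) * d)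
      refine ⟨some j', mkSL (a + ((j : ℕ) : ℤ) * c) t (ℓ * c) (d - ((j' : ℕ) : ℤ) * c)
        (by rw [← hdet]; linear_combination c * ht),
        mem_Gamma0_of_dvd (Dvd.dvd.mul_left ⟨c', hc'⟩ _), ?_⟩
      rw [hγeq, mkSL_coe]
      simp only [tMat, Matrix.mul_fin_two]
      refine mat_ext ?_ ?_ ?_ ?_
      · ring
      · linear_combination ht
      · ring
      · ring

theorem tMat_distinct (hℓ : 1 < ℓ) (i j : Option (Fin ℓ)) (δ : SL(2, ℤ))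
    (h : tMat ℓ i = (δ : Matrix (Fin 2) (Fin 2) ℤ) * tMat ℓ j) : i = j := by
  have hdet := sl_det δ
  rw [sl_eq_of δ] at h
  have hℓ' : (1 : ℤ) < ℓ := by exact_mod_cast hℓ
  rcases i with _ | i <;> rcases j with _ | j
  · rfl
  · -- none / some : `0 = δ10`, `1 = δ10 * j + δ11 * ℓ`
    exfalso
    simp only [tMat, Matrix.mul_fin_two, mat_ext_iff] at h
    obtain ⟨-, -, e10, e11⟩ := h
    have h1 : (ℓ : ℤ) ∣ 1 := ⟨δ 1 1, by linear_combination e11 - ((j : ℕ) : ℤ) * e10⟩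
    have := Int.le_of_dvd one_pos h1
    omega
  · -- some / none : `1 = δ00 * ℓ`
    exfalso
    simp only [tMat, Matrix.mul_fin_two, mat_ext_iff] at h
    obtain ⟨e00, -, -, -⟩ := h
    have h1 : (ℓ : ℤ) ∣ 1 := ⟨δ 0 0, by linear_combination e00⟩
    have := Int.le_of_dvd one_pos h1
    omega
  · -- some / some
    simp only [tMat, Matrix.mul_fin_two, mat_ext_iff] at h
    obtain ⟨e00, e01, -, -⟩ := h
    have h2 : ((i : ℕ) : ℤ) - ((j : ℕ) : ℤ) = δ 0 1 * ℓ := by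
      linear_combination e01 - ((j : ℕ) : ℤ) * e00
    have hi := i.2
    have hj := j.2
    have h3 : ((i : ℕ) : ℤ) = (j : ℕ) := by
      have hlt : |((i : ℕ) : ℤ) - ((j : ℕ) : ℤ)| < ℓ := by
        rw [abs_lt]; constructor <;> omega
      have hd : (ℓ : ℤ) ∣ ((i : ℕ) : ℤ) - ((j : ℕ) : ℤ) := ⟨δ 0 1, by rw [h2]; ring⟩
      have := Int.eq_zero_of_abs_lt_dvd hd hlt
      omega
    congr 1
    exact Fin.ext (by exact_mod_cast h3)

end T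

section U

variable {N p : ℕ}

theorem exists_rel_U (hp : 0 < p) (hpN : p ∣ N) {γ : SL(2, ℤ)} (hγ : γ ∈ Gamma0 N)
    (j : Fin p) :
    ∃ (j' : Fin p) (δ : SL(2, ℤ)), δ ∈ Gamma0 N ∧
      uMat p j * (γ : Matrix (Fin 2) (Fin 2) ℤ) = (δ : Matrix (Fin 2) (Fin 2) ℤ) * uMat p j' := by
  have hdet := sl_det γ
  obtain ⟨c', hc'⟩ := dvd_of_mem_Gamma0 hγ
  obtain ⟨N', hN'⟩ := hpN
  have hγeq := sl_eq_of γ
  set a := γ 0 0 with ha
  set b := γ 0 1 with hb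
  set c := γ 1 0 with hc
  set d := γ 1 1 with hd
  -- `d` inverts `a + j c` mod `p`
  have hv : (p : ℤ) ∣ d * (a + ((j : ℕ) : ℤ) * c) - 1 := by
    refine ⟨N' * c' * (b + ((j : ℕ) : ℤ) * d), ?_⟩
    have : c = (p : ℤ) * N' * c' := by rw [hc', hN']; push_cast; ring
    rw [← hdet, this]; ring
  obtain ⟨j', t, ht⟩ := exists_fin_dvd hp hv (b + ((j : ℕ) : ℤ) * d)
  refine ⟨j', mkSL (a + ((j : ℕ) : ℤ) * c) t (p * c) (d - ((j' : ℕ) : ℤ) * c)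
    (by rw [← hdet]; linear_combination c * ht),
    mem_Gamma0_of_dvd (Dvd.dvd.mul_left ⟨c', hc'⟩ _), ?_⟩
  rw [hγeq, mkSL_coe]
  simp only [uMat, Matrix.mul_fin_two]
  refine mat_ext ?_ ?_ ?_ ?_
  · ring
  · linear_combination ht
  · ring
  · ring

theorem uMat_distinct (i j : Fin p) (δ : SL(2, ℤ))
    (h : uMat p i = (δ : Matrix (Fin 2) (Fin 2) ℤ) * uMat p j) : i = j := by
  rw [sl_eq_of δ] at h
  simp only [uMat, Matrix.mul_fin_two, mat_ext_iff] at h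
  obtain ⟨e00, e01, -, -⟩ := h
  have h2 : ((i : ℕ) : ℤ) - ((j : ℕ) : ℤ) = δ 0 1 * p := by
    linear_combination e01 - ((j : ℕ) : ℤ) * e00
  have hi := i.2
  have hj := j.2
  have h3 : ((i : ℕ) : ℤ) = (j : ℕ) := by
    have hlt : |((i : ℕ) : ℤ) - ((j : ℕ) : ℤ)| < p := by
      rw [abs_lt]; constructor <;> omega
    have hd : (p : ℤ) ∣ ((i : ℕ) : ℤ) - ((j : ℕ) : ℤ) := ⟨δ 0 1, by rw [h2]; ring⟩
    have := Int.eq_zero_of_abs_lt_dvd hd hlt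
    omega
  exact Fin.ext (by exact_mod_cast h3)

end U

end Fermat.Agent.S16.HeckeHom24
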