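import Mathlib
import Fermat.Prelude.Def_ModularForm_HeckeOperator
import Fermat.Prelude.Def_ModularCurve_PeriodMap
import Fermat.Agent.S16.HeckeHom24.Abstract
import Fermat.Agent.S16.HeckeHom24.IntRel

/-!
# S16 (L1): the Hecke operators `T_ℓ` (`ℓ ∤ N`) and `U_p` (`p ∣ N`) on `Hom(Γ₀(N), A)`

The Hecke systems `tSys`, `uSys` for `ι : Γ₀(N) → GL₂(ℝ)` with the Prelude's representatives
`ModularForm.heckeMatrix ℓ j = [[1, j], [0, ℓ]]` and `ModularForm.heckeDiagMatrix ℓ = [[ℓ, 0], [0, 1]]`,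
and the resulting operators `heckeTHom`, `heckeUHom` on `Additive (Gamma0 N) →+ A`.
-/

set_option autoImplicit false

open scoped MatrixGroups
open CongruenceSubgroup ModularForm

namespace Fermat.Agent.S16.HeckeHom24

/-- The embedding `Γ₀(N) → GL₂(ℝ)`. -/
noncomputable def iota (N : ℕ) : ↥(Gamma0 N) →* GL (Fin 2) ℝ :=
  (Matrix.SpecialLinearGroup.mapGL ℝ).comp (Gamma0 N).subtype

theorem iota_apply {N : ℕ} (γ : Gamma0 N) :
    iota N γ = Matrix.SpecialLinearGroup.mapGL ℝ (γ : SL(2, ℤ)) := rfl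

theorem iota_injective (N : ℕ) : Function.Injective (iota N) :=
  Matrix.SpecialLinearGroup.mapGL_injective.comp Subtype.val_injective

theorem mapGL_coe (g : SL(2, ℤ)) :
    ((Matrix.SpecialLinearGroup.mapGL ℝ g : GL (Fin 2) ℝ) : Matrix (Fin 2) (Fin 2) ℝ) =
      (g : Matrix (Fin 2) (Fin 2) ℤ).map (Int.castRingHom ℝ) := by
  rw [Matrix.SpecialLinearGroup.mapGL_coe_matrix]
  rfl

theorem iota_coe {N : ℕ} (γ : Gamma0 N) :
    ((iota N γ : GL (Fin 2) ℝ) : Matrix (Fin 2) (Fin 2) ℝ) =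
      ((γ : SL(2, ℤ)) : Matrix (Fin 2) (Fin 2) ℤ).map (Int.castRingHom ℝ) :=
  mapGL_coe _

/-- Transfer of an integer-matrix identity to `GL₂(ℝ)`. -/
theorem gl_mul_eq_of_int {a b c d : GL (Fin 2) ℝ} {A B C D : Matrix (Fin 2) (Fin 2) ℤ}
    (ha : (a : Matrix (Fin 2) (Fin 2) ℝ) = A.map (Int.castRingHom ℝ))
    (hb : (b : Matrix (Fin 2) (Fin 2) ℝ) = B.map (Int.castRingHom ℝ))
    (hc : (c : Matrix (Fin 2) (Fin 2) ℝ) = C.map (Int.castRingHom ℝ))
    (hd : (d : Matrix (Fin 2) (Fin 2) ℝ) = D.map (Int.castRingHom ℝ))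
    (h : A * B = C * D) : a * b = c * d := by
  apply Units.ext
  rw [Units.val_mul, Units.val_mul, ha, hb, hc, hd, ← Matrix.map_mul, ← Matrix.map_mul, h]

/-- Transfer of a `GL₂(ℝ)` identity back to integer matrices. -/
theorem int_eq_of_gl_eq_mul {a c d : GL (Fin 2) ℝ} {A C D : Matrix (Fin 2) (Fin 2) ℤ}
    (ha : (a : Matrix (Fin 2) (Fin 2) ℝ) = A.map (Int.castRingHom ℝ))
    (hc : (c : Matrix (Fin 2) (Fin 2) ℝ) = C.map (Int.castRingHom ℝ))
    (hd : (d : Matrix (Fin 2) (Fin 2) ℝ) = D.map (Int.castRingHom ℝ))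
    (h : a = c * d) : A = C * D := by
  have h1 : (a : Matrix (Fin 2) (Fin 2) ℝ) = (c * d : GL (Fin 2) ℝ) := congrArg _ h
  rw [Units.val_mul, ha, hc, hd, ← Matrix.map_mul] at h1
  exact Matrix.map_injective (Int.cast_injective (α := ℝ)) h1

/-- The real representatives for `T_ℓ`. -/
noncomputable def tRep (ℓ : ℕ) : Option (Fin ℓ) → GL (Fin 2) ℝ
  | some j => heckeMatrix ℓ j
  | none => heckeDiagMatrix ℓ

@[simp] theorem tRep_some (ℓ : ℕ) (j : Fin ℓ) : tRep ℓ (some j) = heckeMatrix ℓ j := rfl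

@[simp] theorem tRep_none (ℓ : ℕ) : tRep ℓ none = heckeDiagMatrix ℓ := rfl

theorem tRep_coe {ℓ : ℕ} (hℓ : ℓ ≠ 0) (i : Option (Fin ℓ)) :
    ((tRep ℓ i : GL (Fin 2) ℝ) : Matrix (Fin 2) (Fin 2) ℝ) =
      (tMat ℓ i).map (Int.castRingHom ℝ) := by
  rcases i with _ | j
  · rw [tRep_none, val_heckeDiagMatrix hℓ]
    ext u w
    fin_cases u <;> fin_cases w <;> simp [tMat]
  · rw [tRep_some, val_heckeMatrix hℓ]
    ext u w
    fin_cases u <;> fin_cases w <;> simp [tMat]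

/-- The real representatives for `U_p`. -/
noncomputable def uRep (p : ℕ) (j : Fin p) : GL (Fin 2) ℝ := heckeMatrix p j

theorem uRep_coe {p : ℕ} (hp : p ≠ 0) (j : Fin p) :
    ((uRep p j : GL (Fin 2) ℝ) : Matrix (Fin 2) (Fin 2) ℝ) =
      (uMat p j).map (Int.castRingHom ℝ) := by
  rw [uRep, val_heckeMatrix hp]
  ext u w
  fin_cases u <;> fin_cases w <;> simp [uMat]

section T

variable (N : ℕ) {ℓ : ℕ} (hℓ : ℓ.Prime) (hℓN : ¬ ℓ ∣ N)

/-- The Hecke system of `T_ℓ` on `Γ₀(N)`, `ℓ ∤ N`. -/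
noncomputable def tSys : HeckeSys (iota N) (Option (Fin ℓ)) where
  α := tRep ℓ
  perm γ i := (exists_rel_T hℓ hℓN γ.2 i).choose
  elt γ i := ⟨(exists_rel_T hℓ hℓN γ.2 i).choose_spec.choose,
    (exists_rel_T hℓ hℓN γ.2 i).choose_spec.choose_spec.1⟩
  inj := iota_injective N
  rel γ i :=
    gl_mul_eq_of_int (tRep_coe hℓ.ne_zero i) (iota_coe γ) (iota_coe _) (tRep_coe hℓ.ne_zero _)
      (exists_rel_T hℓ hℓN γ.2 i).choose_spec.choose_spec.2
  distinct i j δ h :=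
    tMat_distinct hℓ.one_lt i j δ
      (int_eq_of_gl_eq_mul (tRep_coe hℓ.ne_zero i) (iota_coe δ) (tRep_coe hℓ.ne_zero j) h)

@[simp] theorem tSys_α (i : Option (Fin ℓ)) : (tSys N hℓ hℓN).α i = tRep ℓ i := rfl

/-- The defining relation of `tSys` as an identity of integer matrices. -/
theorem tSys_rel_int (γ : Gamma0 N) (i : Option (Fin ℓ)) :
    tMat ℓ i * ((γ : SL(2, ℤ)) : Matrix (Fin 2) (Fin 2) ℤ) =
      (((tSys N hℓ hℓN).elt γ i : Gamma0 N) : SL(2, ℤ)) * tMat ℓ ((tSys N hℓ hℓN).perm γ i) :=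
  (exists_rel_T hℓ hℓN γ.2 i).choose_spec.choose_spec.2

/-- The Hecke operator `T_ℓ` on `Hom(Γ₀(N), A)`. -/
noncomputable def heckeTHom (A : Type*) [AddCommGroup A] :
    (Additive (Gamma0 N) →+ A) →+ (Additive (Gamma0 N) →+ A) :=
  (tSys N hℓ hℓN).op

theorem heckeTHom_apply {A : Type*} [AddCommGroup A] (φ : Additive (Gamma0 N) →+ A)
    (γ : Gamma0 N) :
    heckeTHom N hℓ hℓN A φ (Additive.ofMul γ) =
      ∑ i, φ (Additive.ofMul ((tSys N hℓ hℓN).elt γ i)) := rfl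

end T

section U

variable (N : ℕ) [NeZero N] {p : ℕ} (hpN : p ∣ N)

include hpN in
theorem pos_of_dvd_level : 0 < p :=
  Nat.pos_of_ne_zero fun h => NeZero.ne N (by rw [h] at hpN; exact Nat.eq_zero_of_zero_dvd hpN)

/-- The Hecke system of `U_p` on `Γ₀(N)`, `p ∣ N`. -/
noncomputable def uSys : HeckeSys (iota N) (Fin p) where
  α := uRep p
  perm γ i := (exists_rel_U (pos_of_dvd_level N hpN) hpN γ.2 i).choose
  elt γ i := ⟨(exists_rel_U (pos_of_dvd_level N hpN) hpN γ.2 i).choose_spec.choose,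
    (exists_rel_U (pos_of_dvd_level N hpN) hpN γ.2 i).choose_spec.choose_spec.1⟩
  inj := iota_injective N
  rel γ i :=
    gl_mul_eq_of_int (uRep_coe (pos_of_dvd_level N hpN).ne' i) (iota_coe γ) (iota_coe _)
      (uRep_coe (pos_of_dvd_level N hpN).ne' _)
      (exists_rel_U (pos_of_dvd_level N hpN) hpN γ.2 i).choose_spec.choose_spec.2
  distinct i j δ h :=
    uMat_distinct i j δ
      (int_eq_of_gl_eq_mul (uRep_coe (pos_of_dvd_level N hpN).ne' i) (iota_coe δ)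
        (uRep_coe (pos_of_dvd_level N hpN).ne' j) h)

@[simp] theorem uSys_α (i : Fin p) : (uSys N hpN).α i = heckeMatrix p i := rfl

/-- The defining relation of `uSys` as an identity of integer matrices. -/
theorem uSys_rel_int (γ : Gamma0 N) (i : Fin p) :
    uMat p i * ((γ : SL(2, ℤ)) : Matrix (Fin 2) (Fin 2) ℤ) =
      (((uSys N hpN).elt γ i : Gamma0 N) : SL(2, ℤ)) * uMat p ((uSys N hpN).perm γ i) :=
  (exists_rel_U (pos_of_dvd_level N hpN) hpN γ.2 i).choose_spec.choose_spec.2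

/-- The Hecke operator `U_p` on `Hom(Γ₀(N), A)`. -/
noncomputable def heckeUHom (A : Type*) [AddCommGroup A] :
    (Additive (Gamma0 N) →+ A) →+ (Additive (Gamma0 N) →+ A) :=
  (uSys N hpN).op

theorem heckeUHom_apply {A : Type*} [AddCommGroup A] (φ : Additive (Gamma0 N) →+ A)
    (γ : Gamma0 N) :
    heckeUHom N hpN A φ (Additive.ofMul γ) =
      ∑ i, φ (Additive.ofMul ((uSys N hpN).elt γ i)) := rfl

end U

end Fermat.Agent.S16.HeckeHom24
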