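import Mathlib
import Fermat.Agent.S16.HeckeHom24.Abstract

/-!
# S16 (L1), abstract part 2: periods of Hecke translates, conjugate systems

* `HeckeSys.sum_smul_sub`: if `F : X → B` has "periods" `F (ι γ • x) - F x = φ γ`, then the Hecke
  translate `x ↦ ∑ i, F (α i • x)` has periods `op φ`.
* `HeckeSys.conj`: transport of a Hecke system along an automorphism `j` of `Γ` induced by
  conjugation by `e : G`; `conj_op`.
* `HeckeSys.op_eq_of_reps'`: independence of representatives with an arbitrary index map.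
-/

set_option autoImplicit false

namespace Fermat.Agent.S16.HeckeHom24

namespace HeckeSys

variable {Γ G : Type*} [Group Γ] [Group G] {ι : Γ →* G} {I : Type*} (D : HeckeSys ι I)

section Periods

variable [Fintype I] {X : Type*} [MulAction G X] {B : Type*} [AddCommGroup B]

/-- Periods of the Hecke translate of a function with periods `φ`. -/
theorem sum_smul_sub (F : X → B) (φ : Additive Γ →+ B)
    (hF : ∀ (γ : Γ) (x : X), F (ι γ • x) - F x = φ (Additive.ofMul γ)) (γ : Γ) (x : X) :
    ∑ i, F (D.α i • ι γ • x) - ∑ i, F (D.α i • x) = D.op φ (Additive.ofMul γ) := by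
  have h1 : ∀ i, F (D.α i • ι γ • x) =
      φ (Additive.ofMul (D.elt γ i)) + F (D.α (D.perm γ i) • x) := by
    intro i
    rw [← mul_smul, D.rel γ i, mul_smul, ← hF (D.elt γ i) (D.α (D.perm γ i) • x)]
    abel
  simp only [h1, Finset.sum_add_distrib]
  have h2 : ∑ i, F (D.α (D.perm γ i) • x) = ∑ i, F (D.α i • x) :=
    Equiv.sum_comp (D.permEquiv γ) (fun i => F (D.α i • x))
  rw [h2, add_sub_cancel_right, op_apply]

end Periods

section Conj

/-- Transport of a Hecke system along an automorphism `j` of `Γ` (with inverse `j'`) which is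
induced by conjugation by `e : G`. -/
def conj (e : G) (j j' : Γ →* Γ) (hj : ∀ γ, ι (j γ) = e * ι γ * e⁻¹)
    (hjj' : ∀ γ, j (j' γ) = γ) : HeckeSys ι I where
  α i := e * D.α i * e⁻¹
  perm γ := D.perm (j' γ)
  elt γ i := j (D.elt (j' γ) i)
  inj := D.inj
  rel γ i := by
    have h1 : ι γ = e * ι (j' γ) * e⁻¹ := by rw [← hj, hjj']
    have h2 := D.rel (j' γ) i
    calc e * D.α i * e⁻¹ * ι γ = e * (D.α i * ι (j' γ)) * e⁻¹ := by
          rw [h1]; simp only [mul_assoc, inv_mul_cancel_left]
      _ = e * (ι (D.elt (j' γ) i) * D.α (D.perm (j' γ) i)) * e⁻¹ := by rw [h2]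
      _ = ι (j (D.elt (j' γ) i)) * (e * D.α (D.perm (j' γ) i) * e⁻¹) := by
          rw [hj]; simp only [mul_assoc, inv_mul_cancel_left]
  distinct i k δ h := by
    refine D.distinct i k (j' δ) ?_
    have h1 : ι δ = e * ι (j' δ) * e⁻¹ := by rw [← hj, hjj']
    rw [h1] at h
    have h2 : e * D.α i * e⁻¹ = e * (ι (j' δ) * D.α k) * e⁻¹ := by
      rw [h]; simp only [mul_assoc, inv_mul_cancel_left]
    exact mul_left_cancel (mul_right_cancel h2)

variable [Fintype I] {A : Type*} [AddCommGroup A]

theorem conj_op (e : G) (j j' : Γ →* Γ) (hj : ∀ γ, ι (j γ) = e * ι γ * e⁻¹)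
    (hjj' : ∀ γ, j (j' γ) = γ) (φ : Additive Γ →+ A) (γ : Γ) :
    (D.conj e j j' hj hjj').op φ (Additive.ofMul γ) =
      D.op (φ.comp (MonoidHom.toAdditive j)) (Additive.ofMul (j' γ)) := rfl

end Conj

section Reps

variable [Fintype I] {A : Type*} [AddCommGroup A]

/-- Independence of representatives, with an arbitrary index map (automatically bijective). -/
theorem op_eq_of_reps' (D' : HeckeSys ι I) (π : I → I) (τ : I → Γ)
    (h : ∀ i, D'.α i = ι (τ i) * D.α (π i)) (φ : Additive Γ →+ A) : D'.op φ = D.op φ := by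
  have hinj : Function.Injective π := by
    intro i k hik
    refine D'.distinct i k (τ i * (τ k)⁻¹) ?_
    rw [h i, h k, hik, map_mul, map_inv, mul_assoc, inv_mul_cancel_left]
  exact D.op_eq_of_reps D' (Equiv.ofBijective π (Finite.injective_iff_bijective.mp hinj)) τ
    (fun i => by rw [h i]; rfl) φ

end Reps

end HeckeSys

end Fermat.Agent.S16.HeckeHom24
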