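import Mathlib
import Fermat.Prelude.Def_ModularForm_HeckeOperatorForms
import Fermat.Agent.S21.PeriodPrim
import Fermat.Agent.S16.HeckeHom24.Concrete
import Fermat.Agent.S16.HeckeHom24.Abstract2

/-!
# S16 (L2): Hecke equivariance of the period map

`periodMap N (T_ℓ f) = heckeTHom (periodMap N f)` and `periodMap N (U_p f) = heckeUHom (periodMap N f)`
for the Prelude's `CuspForm.heckeTLin`, `CuspForm.heckeULin` in weight two.
-/

set_option autoImplicit false

open Complex Filter Topology Function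
open UpperHalfPlane hiding I
open scoped MatrixGroups Manifold ModularForm
open ModularCurve ModularCurve.Period CongruenceSubgroup ModularForm
open Fermat.Agent.S22 Fermat.Agent.S21.PeriodPrim

namespace Fermat.Agent.S16.HeckeHom24

/-- Chain rule for the action of `GL₂(ℝ)⁺` on `ℍ`. -/
theorem hasDerivAt_comp_gl_smul {F f : ℍ → ℂ}
    (hF : ∀ τ : ℍ, HasDerivAt (F ∘ ofComplex) (f τ) τ)
    {g : GL (Fin 2) ℝ} (hg : 0 < g.val.det) (τ : ℍ) :
    HasDerivAt ((fun z : ℍ => F (g • z)) ∘ ofComplex)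
      (f (g • τ) * ((g.val.det : ℂ) / denom g τ ^ 2)) τ := by
  have h1 := hF (g • τ)
  have h2 := (hasStrictDerivAt_smul hg τ).hasDerivAt
  have h3 : ((g • ofComplex (τ : ℂ) : ℍ) : ℂ) = ((g • τ : ℍ) : ℂ) := by rw [ofComplex_apply]
  have h4 := HasDerivAt.comp_of_eq (τ : ℂ) h1 h2 h3.symm
  refine h4.congr_of_eventuallyEq ?_
  filter_upwards with z
  simp only [comp_apply, ofComplex_apply]

theorem val_det_heckeMatrix {p : ℕ} (hp : p ≠ 0) (j : ℕ) : (heckeMatrix p j).val.det = p := by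
  rw [← Matrix.GeneralLinearGroup.val_det_apply, det_heckeMatrix hp]

theorem val_det_heckeDiagMatrix {p : ℕ} (hp : p ≠ 0) : (heckeDiagMatrix p).val.det = p := by
  rw [← Matrix.GeneralLinearGroup.val_det_apply, det_heckeDiagMatrix hp]

theorem hasDerivAt_comp_heckeMatrix {F f : ℍ → ℂ}
    (hF : ∀ τ : ℍ, HasDerivAt (F ∘ ofComplex) (f τ) τ) {p : ℕ} (hp : p ≠ 0) (j : ℕ) (τ : ℍ) :
    HasDerivAt ((fun z : ℍ => F (heckeMatrix p j • z)) ∘ ofComplex)
      ((f ∣[(2 : ℤ)] heckeMatrix p j) τ) τ := by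
  have hdet : 0 < (heckeMatrix p j).val.det := by
    rw [val_det_heckeMatrix hp]; exact_mod_cast Nat.pos_of_ne_zero hp
  have h := hasDerivAt_comp_gl_smul hF hdet τ
  have hp' : (p : ℂ) ≠ 0 := by exact_mod_cast hp
  rw [slash_heckeMatrix_apply 2 hp]
  convert h using 1
  rw [val_det_heckeMatrix hp, denom_heckeMatrix hp]
  push_cast
  field_simp

theorem hasDerivAt_comp_heckeDiagMatrix {F f : ℍ → ℂ}
    (hF : ∀ τ : ℍ, HasDerivAt (F ∘ ofComplex) (f τ) τ) {p : ℕ} (hp : p ≠ 0) (τ : ℍ) :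
    HasDerivAt ((fun z : ℍ => F (heckeDiagMatrix p • z)) ∘ ofComplex)
      ((f ∣[(2 : ℤ)] heckeDiagMatrix p) τ) τ := by
  have hdet : 0 < (heckeDiagMatrix p).val.det := by
    rw [val_det_heckeDiagMatrix hp]; exact_mod_cast Nat.pos_of_ne_zero hp
  have h := hasDerivAt_comp_gl_smul hF hdet τ
  rw [slash_heckeDiagMatrix_apply 2 hp]
  convert h using 1
  rw [val_det_heckeDiagMatrix hp, denom_heckeDiagMatrix hp]
  push_cast
  norm_num
  ring

theorem tendsto_heckeMatrix_smul {p : ℕ} (hp : p ≠ 0) (j : ℕ) :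
    Tendsto (fun z : ℍ => heckeMatrix p j • z) atImInfty atImInfty := by
  rw [atImInfty, tendsto_comap_iff]
  have : (UpperHalfPlane.im ∘ fun z : ℍ => heckeMatrix p j • z) = fun z : ℍ => z.im / p := by
    funext z
    simp only [comp_apply]
    have h := coe_heckeMatrix_smul hp j z
    have h2 : (heckeMatrix p j • z).im = (((heckeMatrix p j • z : ℍ) : ℂ)).im := rfl
    rw [h2, h, Complex.div_natCast_im]
    simp
  rw [this]
  exact tendsto_comap.atTop_div_const (by exact_mod_cast Nat.pos_of_ne_zero hp)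

theorem tendsto_heckeDiagMatrix_smul {p : ℕ} (hp : p ≠ 0) :
    Tendsto (fun z : ℍ => heckeDiagMatrix p • z) atImInfty atImInfty := by
  rw [atImInfty, tendsto_comap_iff]
  have : (UpperHalfPlane.im ∘ fun z : ℍ => heckeDiagMatrix p • z) = fun z : ℍ => (p : ℝ) * z.im := by
    funext z
    simp only [comp_apply]
    have h := coe_heckeDiagMatrix_smul hp z
    have h2 : (heckeDiagMatrix p • z).im = (((heckeDiagMatrix p • z : ℍ) : ℂ)).im := rfl
    rw [h2, h]
    simp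
  rw [this]
  exact tendsto_comap.const_mul_atTop (by exact_mod_cast Nat.pos_of_ne_zero hp)

section Prim

variable {N : ℕ} [NeZero N]

/-- The primitive of `U_p f`. -/
theorem primF_heckeULin {p : ℕ} (hpN : p ∣ N) (f : CuspForm (Gamma0 N) 2) :
    primF (CuspForm.heckeULin 2 hpN f) =
      fun z : ℍ => ∑ j ∈ Finset.range p, primF f (heckeMatrix p j • z) := by
  have hp : p ≠ 0 := (pos_of_dvd_level N hpN).ne'
  symm
  refine eq_prim one_pos (isCuspidal_coe (CuspForm.heckeULin 2 hpN f)) ?_ ?_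
  · intro τ
    have h : HasDerivAt (fun w : ℂ => ∑ j ∈ Finset.range p,
        ((fun z : ℍ => primF f (heckeMatrix p j • z)) ∘ ofComplex) w)
        (∑ j ∈ Finset.range p, (((f : ℍ → ℂ) ∣[(2 : ℤ)] heckeMatrix p j) τ)) τ :=
      HasDerivAt.fun_sum fun j _ => hasDerivAt_comp_heckeMatrix (hasDerivAt_primF f) hp j τ
    have hval : (CuspForm.heckeULin 2 hpN f) τ =
        ∑ j ∈ Finset.range p, (((f : ℍ → ℂ) ∣[(2 : ℤ)] heckeMatrix p j) τ) := by
      rw [CuspForm.heckeULin_apply_apply, heckeU_def, Finset.sum_apply]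
    rw [hval]
    exact h
  · have : Tendsto (fun z : ℍ => ∑ j ∈ Finset.range p, primF f (heckeMatrix p j • z)) atImInfty
        (𝓝 (∑ _j ∈ Finset.range p, (0 : ℂ))) :=
      tendsto_finsetSum _ fun j _ =>
        (isZeroAtImInfty_primF f).comp (tendsto_heckeMatrix_smul hp j)
    have h3 : Tendsto (fun z : ℍ => ∑ j ∈ Finset.range p, primF f (heckeMatrix p j • z)) atImInfty
        (𝓝 0) := by simpa using this
    exact h3

/-- The primitive of `T_ℓ f`. -/
theorem primF_heckeTLin {ℓ : ℕ} (hℓ : ℓ.Prime) (hℓN : ¬ ℓ ∣ N) (f : CuspForm (Gamma0 N) 2) :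
    primF (CuspForm.heckeTLin 2 hℓ hℓN f) =
      fun z : ℍ => ∑ j ∈ Finset.range ℓ, primF f (heckeMatrix ℓ j • z) +
        primF f (heckeDiagMatrix ℓ • z) := by
  have hp : ℓ ≠ 0 := hℓ.ne_zero
  symm
  refine eq_prim one_pos (isCuspidal_coe (CuspForm.heckeTLin 2 hℓ hℓN f)) ?_ ?_
  · intro τ
    have h : HasDerivAt (fun w : ℂ => ∑ j ∈ Finset.range ℓ,
        ((fun z : ℍ => primF f (heckeMatrix ℓ j • z)) ∘ ofComplex) w)
        (∑ j ∈ Finset.range ℓ, (((f : ℍ → ℂ) ∣[(2 : ℤ)] heckeMatrix ℓ j) τ)) τ :=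
      HasDerivAt.fun_sum fun j _ => hasDerivAt_comp_heckeMatrix (hasDerivAt_primF f) hp j τ
    have h' := h.add (hasDerivAt_comp_heckeDiagMatrix (hasDerivAt_primF f) hp τ)
    have hval : (CuspForm.heckeTLin 2 hℓ hℓN f) τ =
        ∑ j ∈ Finset.range ℓ, (((f : ℍ → ℂ) ∣[(2 : ℤ)] heckeMatrix ℓ j) τ) +
          (((f : ℍ → ℂ) ∣[(2 : ℤ)] heckeDiagMatrix ℓ) τ) := by
      rw [CuspForm.heckeTLin_apply_apply, heckeT_def, Pi.add_apply, Finset.sum_apply]
    rw [hval]
    exact h'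
  · have h1 : Tendsto (fun z : ℍ => ∑ j ∈ Finset.range ℓ, primF f (heckeMatrix ℓ j • z)) atImInfty
        (𝓝 (∑ _j ∈ Finset.range ℓ, (0 : ℂ))) :=
      tendsto_finsetSum _ fun j _ =>
        (isZeroAtImInfty_primF f).comp (tendsto_heckeMatrix_smul hp j)
    have h2 := h1.add ((isZeroAtImInfty_primF f).comp (tendsto_heckeDiagMatrix_smul hp))
    have h3 : Tendsto (fun z : ℍ => ∑ j ∈ Finset.range ℓ, primF f (heckeMatrix ℓ j • z) +
        primF f (heckeDiagMatrix ℓ • z)) atImInfty (𝓝 0) := by simpa using h2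
    exact h3

end Prim

section Equivariance

variable {N : ℕ} [NeZero N]

theorem primF_iota_smul_sub (f : CuspForm (Gamma0 N) 2) (γ : Gamma0 N) (x : ℍ) :
    primF f (iota N γ • x) - primF f x = periodMap N f (Additive.ofMul γ) :=
  (periodMap_apply f γ x).symm

theorem sum_tRep {ℓ : ℕ} (F : ℍ → ℂ) (x : ℍ) :
    ∑ i : Option (Fin ℓ), F (tRep ℓ i • x) =
      ∑ j ∈ Finset.range ℓ, F (heckeMatrix ℓ j • x) + F (heckeDiagMatrix ℓ • x) := by
  rw [Fintype.sum_option, add_comm]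
  congr 1
  exact Fin.sum_univ_eq_sum_range (fun j => F (heckeMatrix ℓ j • x)) ℓ

theorem sum_uRep {p : ℕ} (F : ℍ → ℂ) (x : ℍ) :
    ∑ i : Fin p, F (uRep p i • x) = ∑ j ∈ Finset.range p, F (heckeMatrix p j • x) :=
  Fin.sum_univ_eq_sum_range (fun j => F (heckeMatrix p j • x)) p

/-- **Hecke equivariance of the period map, `T_ℓ`.** -/
theorem periodMap_heckeTLin {ℓ : ℕ} (hℓ : ℓ.Prime) (hℓN : ¬ ℓ ∣ N) (f : CuspForm (Gamma0 N) 2) :
    periodMap N (CuspForm.heckeTLin 2 hℓ hℓN f) = heckeTHom N hℓ hℓN ℂ (periodMap N f) := by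
  refine AddMonoidHom.ext fun γ => ?_
  obtain ⟨γ, rfl⟩ := Additive.ofMul.surjective γ
  rw [periodMap_apply _ γ UpperHalfPlane.I, primF_heckeTLin]
  simp only []
  rw [← sum_tRep (primF f), ← sum_tRep (primF f)]
  exact (tSys N hℓ hℓN).sum_smul_sub (primF f) (periodMap N f) (primF_iota_smul_sub f) γ
    UpperHalfPlane.I

/-- **Hecke equivariance of the period map, `U_p`.** -/
theorem periodMap_heckeULin {p : ℕ} (hpN : p ∣ N) (f : CuspForm (Gamma0 N) 2) :
    periodMap N (CuspForm.heckeULin 2 hpN f) = heckeUHom N hpN ℂ (periodMap N f) := by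
  refine AddMonoidHom.ext fun γ => ?_
  obtain ⟨γ, rfl⟩ := Additive.ofMul.surjective γ
  rw [periodMap_apply _ γ UpperHalfPlane.I, primF_heckeULin]
  simp only []
  rw [← sum_uRep (primF f), ← sum_uRep (primF f)]
  exact (uSys N hpN).sum_smul_sub (primF f) (periodMap N f) (primF_iota_smul_sub f) γ
    UpperHalfPlane.I

end Equivariance

end Fermat.Agent.S16.HeckeHom24
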