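import Mathlib
import Fermat.Prelude.Def_ModularCurve_PeriodMap
import Fermat.Agent.S16.HeckeHom24.Concrete

/-!
# S16 (L1): the Hecke operators on `Hom(Γ₀(N), A)` preserve parabolic classes (torsion-free `A`)

For `IsAddTorsionFree A` (e.g. `A = ℤ, ℂ`), `heckeTHom` and `heckeUHom` map
`ModularCurve.Period.parabolicHoms R (Gamma0 N) A` into itself.
-/

set_option autoImplicit false

open scoped MatrixGroups
open CongruenceSubgroup ModularForm ModularCurve.Period

namespace Fermat.Agent.S16.HeckeHom24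

/-- A `2 × 2` integer matrix of determinant one and trace `2 s`, `s ^ 2 = 1`: all powers have
trace `2 s ^ m`. -/
theorem trace_pow_of_trace_eq (M : Matrix (Fin 2) (Fin 2) ℤ) (hdet : M.det = 1) (s : ℤ)
    (hs : s * s = 1) (ht : M.trace = 2 * s) (m : ℕ) : (M ^ m).trace = 2 * s ^ m := by
  rw [Matrix.det_fin_two] at hdet
  rw [Matrix.trace_fin_two] at ht
  set x := M 0 0 - s with hx
  set b := M 0 1 with hb
  set c := M 1 0 with hc
  have h00 : M 0 0 = s + x := by rw [hx]; ring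
  have h11 : M 1 1 = s - x := by rw [hx]; linarith
  have hbc : x * x + b * c = 0 := by
    rw [h00, h11] at hdet
    linear_combination (-1 : ℤ) * hdet + hs
  have hM : M = !![s + x, b; c, s - x] := by
    rw [← h00, ← h11]
    exact Matrix.eta_fin_two M
  have key : ∀ m : ℕ, ∃ c' : ℤ,
      M ^ m = !![s ^ m + c' * x, c' * b; c' * c, s ^ m - c' * x] := by
    intro m
    induction m with
    | zero =>
      refine ⟨0, ?_⟩
      rw [pow_zero, Matrix.one_fin_two]
      exact mat_ext (by ring) (by ring) (by ring) (by ring)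
    | succ m ih =>
      obtain ⟨c', hc'⟩ := ih
      refine ⟨s ^ m + c' * s, ?_⟩
      rw [pow_succ, hc']
      conv_lhs => rw [hM]
      rw [Matrix.mul_fin_two]
      refine mat_ext ?_ ?_ ?_ ?_
      · linear_combination c' * hbc
      · ring
      · ring
      · linear_combination c' * hbc
  obtain ⟨c', hc'⟩ := key m
  rw [hc', Matrix.trace_fin_two_of]
  ring

theorem trace_pow_sq_eq_four (γ : SL(2, ℤ))
    (h : ((γ : Matrix (Fin 2) (Fin 2) ℤ).trace) ^ 2 = 4) (m : ℕ) :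
    (((γ ^ m : SL(2, ℤ)) : Matrix (Fin 2) (Fin 2) ℤ).trace) ^ 2 = 4 := by
  have h2 : (γ : Matrix (Fin 2) (Fin 2) ℤ).trace = 2 ∨
      (γ : Matrix (Fin 2) (Fin 2) ℤ).trace = -2 := by
    have : ((γ : Matrix (Fin 2) (Fin 2) ℤ).trace) ^ 2 = 2 ^ 2 := by rw [h]; norm_num
    exact sq_eq_sq_iff_eq_or_eq_neg.mp this
  rw [Matrix.SpecialLinearGroup.coe_pow]
  rcases h2 with h2 | h2
  · rw [trace_pow_of_trace_eq _ γ.det_coe 1 (by norm_num) (by rw [h2]; norm_num) m]
    simp
  · rw [trace_pow_of_trace_eq _ γ.det_coe (-1) (by norm_num) (by rw [h2]; norm_num) m]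
    rw [mul_pow, ← pow_mul, mul_comm m 2, pow_mul]
    norm_num

/-- The trace of `iota N γ` is the cast of the integer trace. -/
theorem trace_iota {N : ℕ} (γ : Gamma0 N) :
    ((iota N γ : GL (Fin 2) ℝ) : Matrix (Fin 2) (Fin 2) ℝ).trace =
      ((((γ : SL(2, ℤ)) : Matrix (Fin 2) (Fin 2) ℤ).trace : ℤ) : ℝ) := by
  rw [iota_coe, Matrix.trace_fin_two, Matrix.trace_fin_two]
  simp

/-- Conjugation in `GL₂(ℝ)` preserves the integer trace. -/
theorem trace_eq_of_conj {N : ℕ} {δ γ : Gamma0 N} {a : GL (Fin 2) ℝ}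
    (h : iota N δ = a * iota N γ * a⁻¹) :
    ((δ : SL(2, ℤ)) : Matrix (Fin 2) (Fin 2) ℤ).trace =
      ((γ : SL(2, ℤ)) : Matrix (Fin 2) (Fin 2) ℤ).trace := by
  have h1 : ((iota N δ : GL (Fin 2) ℝ) : Matrix (Fin 2) (Fin 2) ℝ).trace =
      ((iota N γ : GL (Fin 2) ℝ) : Matrix (Fin 2) (Fin 2) ℝ).trace := by
    rw [h]
    exact Matrix.trace_units_conj a _
  rw [trace_iota, trace_iota] at h1
  exact_mod_cast h1

section

variable {N : ℕ} {A : Type*} [AddCommGroup A] [IsAddTorsionFree A]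

/-- A Hecke system for `Γ₀(N) → GL₂(ℝ)` preserves parabolic homomorphisms with torsion-free
values. -/
theorem op_isParabolicHom {I : Type*} [Fintype I] (D : HeckeSys (iota N) I)
    {φ : Additive (Gamma0 N) →+ A} (hφ : IsParabolicHom (Gamma0 N) φ) :
    IsParabolicHom (Gamma0 N) (D.op φ) := by
  intro γ hγ
  refine D.op_apply_eq_zero_of_torsionFree φ γ fun δ i m _ h => hφ δ ?_
  rw [trace_eq_of_conj h]
  have := trace_pow_sq_eq_four (γ : SL(2, ℤ)) hγ m
  rwa [← SubgroupClass.coe_pow] at this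

theorem heckeTHom_mem_parabolicHoms (R : Type*) [Semiring R] [Module R A] {ℓ : ℕ}
    (hℓ : ℓ.Prime) (hℓN : ¬ ℓ ∣ N) {φ : Additive (Gamma0 N) →+ A}
    (hφ : φ ∈ parabolicHoms R (Gamma0 N) A) :
    heckeTHom N hℓ hℓN A φ ∈ parabolicHoms R (Gamma0 N) A :=
  op_isParabolicHom (tSys N hℓ hℓN) hφ

theorem heckeUHom_mem_parabolicHoms (R : Type*) [Semiring R] [Module R A] [NeZero N] {p : ℕ}
    (hpN : p ∣ N) {φ : Additive (Gamma0 N) →+ A}
    (hφ : φ ∈ parabolicHoms R (Gamma0 N) A) :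
    heckeUHom N hpN A φ ∈ parabolicHoms R (Gamma0 N) A :=
  op_isParabolicHom (uSys N hpN) hφ

end

end Fermat.Agent.S16.HeckeHom24
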